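import Fermat.Prelude.Def_GaloisRep_DeformationRingData
import Fermat.Prelude.Def_GaloisRep_LocalConditions
import Fermat.Prelude.Def_GaloisRep_StrictOrdinary
import Fermat.Prelude.Def_GaloisRep_Flat
import Fermat.Prelude.Def_GaloisRep_Residual
import Fermat.Prelude.Def_GaloisRep_DeformationCondition
import Mathlib.RingTheory.MvPowerSeries.Basic

/-!
# PROGRAM G (S56, Taylor–Wiles primes): top-level typed contracts — DESIGN v0 (helper25)

Level 1: `s56_of_blocks : TanOut → TWPrimesOut (strict-ordinary) → TWPrimesOut (flat) → S56`.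
Level 2: `twPrimesOut_of_selmer`: `TWPrimesOut` from the numeric Selmer package
(`SEL` tangent classes inject into a Selmer group of dimension `d Q`, `GW+LOC` `d Q ≤ d* Q + #Q`,
`TW` Chebotarev sets with `d* Q = 0`).
-/

set_option autoImplicit false

open Polynomial IsLocalRing

namespace Fermat.Agent.TW.Contracts

local notation "Γℚ" => (AlgebraicClosure ℚ ≃ₐ[ℚ] AlgebraicClosure ℚ)

/-- A deformation condition (the shape used by `DeformationRingData`). -/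
abbrev Cond (𝒪 : Type) [CommRing 𝒪] : Type 1 :=
  ∀ ⦃A : Type⦄ [CommRing A] [IsLocalRing A] [Algebra 𝒪 A], GaloisRepAdic A → Prop

section Tangent

variable (𝒪 : Type) [CommRing 𝒪] [IsLocalRing 𝒪]

/-- The `𝒪`-algebra structure on the dual numbers of the residue field (as in `TangentFinite`). -/
@[reducible] noncomputable def dualNumberAlgebra : Algebra 𝒪 (DualNumber (ResidueField 𝒪)) :=
  ((algebraMap (ResidueField 𝒪) (DualNumber (ResidueField 𝒪))).comp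
    (algebraMap 𝒪 (ResidueField 𝒪))).toAlgebra

/-- The `k`-algebra structure on the residue field of `k[ε]` (as in `TangentFinite`). -/
@[reducible] noncomputable def dualNumberResidueAlgebra :
    Algebra (ResidueField 𝒪) (ResidueField (DualNumber (ResidueField 𝒪))) :=
  ((IsLocalRing.residue (DualNumber (ResidueField 𝒪))).comp
    (algebraMap (ResidueField 𝒪) (DualNumber (ResidueField 𝒪)))).toAlgebra

/-- **Tangent bound.** The `𝒟`-deformations of `ρbar` to `k[ε]` are classified, up to equivalence,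
by a vector of `r` elements of `k`: there is a map to `k^r` whose fibres consist of equivalent
deformations.  (Same carrier as `GaloisRep.TangentFinite`.) -/
def TangentCardLe (ρbar : ResidualGaloisRep (ResidueField 𝒪)) (𝒟 : Cond 𝒪) (r : ℕ) : Prop :=
  letI : Algebra 𝒪 (DualNumber (ResidueField 𝒪)) := dualNumberAlgebra 𝒪
  letI : Algebra (ResidueField 𝒪) (ResidueField (DualNumber (ResidueField 𝒪))) :=
    dualNumberResidueAlgebra 𝒪
  ∃ f : {ρ : GaloisRepAdic (DualNumber (ResidueField 𝒪)) //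
      𝒟 ρ ∧ ρ.residual.IsEquiv (ρbar.baseChange (ResidueField (DualNumber (ResidueField 𝒪))))} →
      (Fin r → ResidueField 𝒪),
    ∀ ρ ρ', f ρ = f ρ' → ρ.1.IsEquiv ρ'.1

theorem TangentCardLe.mono {ρbar : ResidualGaloisRep (ResidueField 𝒪)} {𝒟 : Cond 𝒪} {r s : ℕ}
    (h : TangentCardLe 𝒪 ρbar 𝒟 r) (hrs : r ≤ s) : TangentCardLe 𝒪 ρbar 𝒟 s := by
  obtain ⟨f, hf⟩ := h
  refine ⟨fun ρ i => if hi : (i : ℕ) < r then f ρ ⟨i, hi⟩ else 0, fun ρ ρ' hρ => hf ρ ρ' ?_⟩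
  funext i
  have := congrFun hρ ⟨i, lt_of_lt_of_le i.2 hrs⟩
  simpa using this

end Tangent

/-- Base-change stability of `𝒟` along the tangent vectors of a universal ring (helper10's fix:
without it `TanOut` is false for pathological `𝒟`, e.g. `𝒟₀ ∧ ¬ IsArtinianRing A`). -/
def TangentBC {𝒪 : Type} [CommRing 𝒪] [IsDomain 𝒪] [IsDiscreteValuationRing 𝒪]
    [IsAdicComplete (maximalIdeal 𝒪) 𝒪] {ρbar : ResidualGaloisRep (ResidueField 𝒪)} {𝒟 : Cond 𝒪}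
    (DQ : GaloisRep.DeformationRingData 𝒪 ρbar 𝒟) : Prop :=
  letI : Algebra 𝒪 (DualNumber (ResidueField 𝒪)) := dualNumberAlgebra 𝒪
  ∀ (φ : DQ.R →ₐ[𝒪] DualNumber (ResidueField 𝒪))
    (hφ : IsLocalHom (φ : DQ.R →+* DualNumber (ResidueField 𝒪))),
    𝒟 (DQ.ρ.baseChangeAlong (φ : DQ.R →+* DualNumber (ResidueField 𝒪)) hφ)

/-- **Block TAN** (pure deformation theory, no arithmetic): if the tangent classes of `𝒟` are
classified by `k^r`, every universal deformation ring of `𝒟` whose tangent vectors are of type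
`𝒟` is a quotient of `𝒪⟦X₁,…,X_r⟧`. -/
def TanOut : Prop :=
  ∀ (𝒪 : Type) [CommRing 𝒪] [IsDomain 𝒪] [IsDiscreteValuationRing 𝒪]
    [IsAdicComplete (maximalIdeal 𝒪) 𝒪] [Finite (ResidueField 𝒪)]
    (ρbar : ResidualGaloisRep (ResidueField 𝒪)) (𝒟 : Cond 𝒪) (r : ℕ),
    TangentCardLe 𝒪 ρbar 𝒟 r →
    ∀ DQ : GaloisRep.DeformationRingData 𝒪 ρbar 𝒟, TangentBC DQ →
      ∃ γ : MvPowerSeries (Fin r) 𝒪 →ₐ[𝒪] DQ.R, Function.Surjective γ

section Shape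

variable {𝒪 : Type} [CommRing 𝒪] [IsLocalRing 𝒪]

/-- The deformation condition of S56 attached to a base condition `c` (strict-ordinary or flat),
the minimal set `Smin` and the set `Q` of auxiliary primes. -/
def condQ (c : ℕ → Finset ℕ → Cond 𝒪) (p : ℕ) (Smin Q : Finset ℕ) : Cond 𝒪 :=
  fun _A _ _ _ ρ => c p (Smin ∪ Q) ρ ∧ ∀ q ∈ Smin, q.Prime → q ≠ p → ρ.IsUnipotentOnInertiaAt q

/-- `qv` is a Taylor–Wiles family of level `n` for `(p, S, ρbar)`. -/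
def IsTWFamily (p : ℕ) (ρbar : ResidualGaloisRep (ResidueField 𝒪)) (S : Finset ℕ) (n : ℕ)
    {r : ℕ} (qv : Fin r → ℕ) : Prop :=
  Function.Injective qv ∧
    (∀ i, (qv i).Prime ∧ qv i ∉ S ∧ p ^ (n + 1) ∣ qv i - 1) ∧
    (∀ i, ∀ P : ValuationSubring (AlgebraicClosure ℚ), P.LiesOverPrime (qv i) →
      ∀ φ : Γℚ, P.IsFrobeniusAt φ (qv i) →
        ∃ α β : ResidueField 𝒪, α ≠ β ∧ LinearMap.charpoly (ρbar.ρ φ) = (X - C α) * (X - C β))

/-- **Arithmetic output** for one base condition `c`: TW families of a fixed size `r` at every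
level `n`, with tangent classes of the `Q`-problem classified by `k^r`. -/
def TWPrimesOut (c : ℕ → Finset ℕ → Cond 𝒪) (p : ℕ)
    (ρbar : ResidualGaloisRep (ResidueField 𝒪)) (S Smin : Finset ℕ) : Prop :=
  ∃ r : ℕ, ∀ n : ℕ, ∃ qv : Fin r → ℕ, IsTWFamily p ρbar S n qv ∧
    TangentCardLe 𝒪 ρbar (condQ c p Smin (Finset.univ.image qv)) r

end Shape

/-- The hypotheses of S56 on `(𝒪, p, ρbar, S, Smin)`, bundled. -/
structure Hyp (𝒪 : Type) [CommRing 𝒪] [IsDomain 𝒪] [IsDiscreteValuationRing 𝒪]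
    (p : ℕ) (ρbar : ResidualGaloisRep (ResidueField 𝒪)) (S Smin : Finset ℕ) : Prop where
  hp : p.Prime
  hp2 : p ≠ 2
  hp𝒪 : (p : 𝒪) ∈ maximalIdeal 𝒪
  habs : ρbar.IsAbsolutelyIrreducible
  hdet : (GaloisRepAdic.ofResidualGaloisRep ρbar).DetIsCyclotomic p
  hsplit : ∀ σ : Γℚ, ∃ α β : ResidueField 𝒪,
    LinearMap.charpoly (ρbar.ρ σ) = (X - C α) * (X - C β)
  hTW : ∀ (K : Type) [Field K] [Algebra (ResidueField 𝒪) K] (G : Subgroup Γℚ), G.index = 2 →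
    ∀ V : Submodule K (ρbar.baseChange K).V,
      (∀ σ ∈ G, ∀ x ∈ V, (ρbar.baseChange K).ρ σ x ∈ V) → V = ⊥ ∨ V = ⊤
  hpSmin : p ∈ Smin
  hSmin : Smin ⊆ S
  hS : ∀ q ∈ S, q.Prime
  hmin : ∀ q : ℕ, q.Prime → q ≠ p → (q ∈ Smin ↔ ¬ ρbar.IsUnramifiedAt q)

/-- The arithmetic block for a base condition `c`, as a `Prop` over all inputs of S56. -/
def ArithOut (c : ∀ (𝒪 : Type) [CommRing 𝒪], ℕ → Finset ℕ → Cond 𝒪) : Prop :=
  ∀ (𝒪 : Type) [CommRing 𝒪] [IsDomain 𝒪] [IsDiscreteValuationRing 𝒪]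
    [IsAdicComplete (maximalIdeal 𝒪) 𝒪] [Finite (ResidueField 𝒪)]
    (p : ℕ) (ρbar : ResidualGaloisRep (ResidueField 𝒪)) (S Smin : Finset ℕ),
    Hyp 𝒪 p ρbar S Smin → TWPrimesOut (c 𝒪) p ρbar S Smin

/-- **Block BC**: the conditions of S56 are stable under base change along tangent vectors
(strict-ordinary: base change of the line; flat: the ideals of `k[ε]` are `0, (ε), ⊤`, transport of
the same Hopf algebra, `H ⊗ H` for the zero tangent vector). -/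
def BCOut (c : ∀ (𝒪 : Type) [CommRing 𝒪], ℕ → Finset ℕ → Cond 𝒪) : Prop :=
  ∀ (𝒪 : Type) [CommRing 𝒪] [IsDomain 𝒪] [IsDiscreteValuationRing 𝒪]
    [IsAdicComplete (maximalIdeal 𝒪) 𝒪] [Finite (ResidueField 𝒪)]
    (p : ℕ) (ρbar : ResidualGaloisRep (ResidueField 𝒪)) (S Smin Q : Finset ℕ),
    Hyp 𝒪 p ρbar S Smin →
    ∀ DQ : GaloisRep.DeformationRingData 𝒪 ρbar (condQ (c 𝒪) p Smin Q), TangentBC DQ

/-- **S56 from the blocks.** -/
theorem s56_of_blocks (hTAN : TanOut)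
    (hBCord : BCOut (fun 𝒪 _ p T => GaloisRep.strictOrdinaryCondition 𝒪 p T))
    (hBCflat : BCOut (fun 𝒪 _ p T => GaloisRep.flatCondition 𝒪 p T))
    (hord : ArithOut (fun 𝒪 _ p T => GaloisRep.strictOrdinaryCondition 𝒪 p T))
    (hflat : ArithOut (fun 𝒪 _ p T => GaloisRep.flatCondition 𝒪 p T))
    {𝒪 : Type} [CommRing 𝒪] [IsDomain 𝒪] [IsDiscreteValuationRing 𝒪]
    [IsAdicComplete (maximalIdeal 𝒪) 𝒪] [Finite (ResidueField 𝒪)]
    (p : ℕ) [Fact p.Prime] (hp2 : p ≠ 2) (hp𝒪 : (p : 𝒪) ∈ maximalIdeal 𝒪)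
    (ρbar : ResidualGaloisRep (ResidueField 𝒪))
    (habs : ρbar.IsAbsolutelyIrreducible)
    (hdet : (GaloisRepAdic.ofResidualGaloisRep ρbar).DetIsCyclotomic p)
    (hsplit : ∀ σ : AlgebraicClosure ℚ ≃ₐ[ℚ] AlgebraicClosure ℚ,
      ∃ α β : ResidueField 𝒪, LinearMap.charpoly (ρbar.ρ σ) = (X - C α) * (X - C β))
    (hTW : ∀ (K : Type) [Field K] [Algebra (ResidueField 𝒪) K]
      (G : Subgroup (AlgebraicClosure ℚ ≃ₐ[ℚ] AlgebraicClosure ℚ)), G.index = 2 →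
      ∀ V : Submodule K (ρbar.baseChange K).V,
        (∀ σ ∈ G, ∀ x ∈ V, (ρbar.baseChange K).ρ σ x ∈ V) → V = ⊥ ∨ V = ⊤)
    (S Smin : Finset ℕ) (hpSmin : p ∈ Smin) (hSmin : Smin ⊆ S) (hS : ∀ q ∈ S, q.Prime)
    (hmin : ∀ q : ℕ, q.Prime → q ≠ p → (q ∈ Smin ↔ ¬ ρbar.IsUnramifiedAt q)) :
    (∃ r : ℕ, ∀ n : ℕ, ∃ qv : Fin r → ℕ, Function.Injective qv ∧
      (∀ i, (qv i).Prime ∧ qv i ∉ S ∧ p ^ (n + 1) ∣ qv i - 1) ∧
      (∀ i, ∀ P : ValuationSubring (AlgebraicClosure ℚ), P.LiesOverPrime (qv i) →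
        ∀ φ : AlgebraicClosure ℚ ≃ₐ[ℚ] AlgebraicClosure ℚ, P.IsFrobeniusAt φ (qv i) →
          ∃ α β : ResidueField 𝒪, α ≠ β ∧ LinearMap.charpoly (ρbar.ρ φ) = (X - C α) * (X - C β)) ∧
      ∀ DQ : GaloisRep.DeformationRingData 𝒪 ρbar (fun _A _ _ _ ρ =>
          GaloisRep.strictOrdinaryCondition 𝒪 p (Smin ∪ Finset.univ.image qv) ρ ∧
            ∀ q ∈ Smin, q.Prime → q ≠ p → ρ.IsUnipotentOnInertiaAt q),
        ∃ γ : MvPowerSeries (Fin r) 𝒪 →ₐ[𝒪] DQ.R, Function.Surjective γ) ∧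
    (∃ r : ℕ, ∀ n : ℕ, ∃ qv : Fin r → ℕ, Function.Injective qv ∧
      (∀ i, (qv i).Prime ∧ qv i ∉ S ∧ p ^ (n + 1) ∣ qv i - 1) ∧
      (∀ i, ∀ P : ValuationSubring (AlgebraicClosure ℚ), P.LiesOverPrime (qv i) →
        ∀ φ : AlgebraicClosure ℚ ≃ₐ[ℚ] AlgebraicClosure ℚ, P.IsFrobeniusAt φ (qv i) →
          ∃ α β : ResidueField 𝒪, α ≠ β ∧ LinearMap.charpoly (ρbar.ρ φ) = (X - C α) * (X - C β)) ∧
      ∀ DQ : GaloisRep.DeformationRingData 𝒪 ρbar (fun _A _ _ _ ρ =>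
          GaloisRep.flatCondition 𝒪 p (Smin ∪ Finset.univ.image qv) ρ ∧
            ∀ q ∈ Smin, q.Prime → q ≠ p → ρ.IsUnipotentOnInertiaAt q),
        ∃ γ : MvPowerSeries (Fin r) 𝒪 →ₐ[𝒪] DQ.R, Function.Surjective γ) := by
  have hH : Hyp 𝒪 p ρbar S Smin :=
    ⟨Fact.out, hp2, hp𝒪, habs, hdet, hsplit, hTW, hpSmin, hSmin, hS, hmin⟩
  refine ⟨?_, ?_⟩
  · obtain ⟨r, hr⟩ := hord 𝒪 p ρbar S Smin hH
    refine ⟨r, fun n => ?_⟩
    obtain ⟨qv, ⟨h1, h2, h3⟩, h4⟩ := hr n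
    exact ⟨qv, h1, h2, h3, fun DQ => hTAN 𝒪 ρbar _ r h4 DQ
      (hBCord 𝒪 p ρbar S Smin _ hH DQ)⟩
  · obtain ⟨r, hr⟩ := hflat 𝒪 p ρbar S Smin hH
    refine ⟨r, fun n => ?_⟩
    obtain ⟨qv, ⟨h1, h2, h3⟩, h4⟩ := hr n
    exact ⟨qv, h1, h2, h3, fun DQ => hTAN 𝒪 ρbar _ r h4 DQ
      (hBCflat 𝒪 p ρbar S Smin _ hH DQ)⟩


/-! ## Level 2: `TWPrimesOut` from the numeric Selmer package -/

section Level2

variable {𝒪 : Type} [CommRing 𝒪] [IsLocalRing 𝒪]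

/-- `Q` is an admissible auxiliary set: primes outside `S`, `≡ 1 mod p`, distinct Frobenius
eigenvalues of `ρbar`. -/
def IsAux (p : ℕ) (ρbar : ResidualGaloisRep (ResidueField 𝒪)) (S Q : Finset ℕ) : Prop :=
  ∀ q ∈ Q, q.Prime ∧ q ∉ S ∧ p ∣ q - 1 ∧
    ∀ P : ValuationSubring (AlgebraicClosure ℚ), P.LiesOverPrime q →
      ∀ φ : Γℚ, P.IsFrobeniusAt φ q →
        ∃ α β : ResidueField 𝒪, α ≠ β ∧ LinearMap.charpoly (ρbar.ρ φ) = (X - C α) * (X - C β)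

theorem IsTWFamily.isAux {p : ℕ} {ρbar : ResidualGaloisRep (ResidueField 𝒪)} {S : Finset ℕ}
    {n r : ℕ} {qv : Fin r → ℕ} (h : IsTWFamily p ρbar S n qv) :
    IsAux p ρbar S (Finset.univ.image qv) := by
  intro q hq
  obtain ⟨i, -, rfl⟩ := Finset.mem_image.mp hq
  exact ⟨(h.2.1 i).1, (h.2.1 i).2.1, (dvd_pow_self p (Nat.succ_ne_zero n)).trans (h.2.1 i).2.2,
    h.2.2 i⟩

/-- **The numeric Selmer package** for a base condition `c`.
* `d Q  = dim_k H¹_{L_Q}(G_ℚ, ad⁰ρbar)` (Selmer group of the `Q`-problem),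
* `dstar Q = dim_k H¹_{L_Q^⊥}(G_ℚ, ad⁰ρbar(1))` (dual Selmer group),
* `sel`: (SEL) the tangent classes of the `Q`-problem inject into the Selmer group,
* `gw`: (GW) + (LOC-q) + (LOC-S) + (LOC-p) + (INF), evaluated: `d Q ≤ dstar Q + #Q`,
* `tw`: (TW) Chebotarev: TW families of a fixed size killing the dual Selmer group. -/
structure SelmerPackage (c : ℕ → Finset ℕ → Cond 𝒪) (p : ℕ)
    (ρbar : ResidualGaloisRep (ResidueField 𝒪)) (S Smin : Finset ℕ) where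
  d : Finset ℕ → ℕ
  dstar : Finset ℕ → ℕ
  sel : ∀ Q, IsAux p ρbar S Q → TangentCardLe 𝒪 ρbar (condQ c p Smin Q) (d Q)
  gw : ∀ Q, IsAux p ρbar S Q → d Q ≤ dstar Q + Q.card
  tw : ∃ r : ℕ, ∀ n : ℕ, ∃ qv : Fin r → ℕ, IsTWFamily p ρbar S n qv ∧
    dstar (Finset.univ.image qv) = 0

theorem twPrimesOut_of_package {c : ℕ → Finset ℕ → Cond 𝒪} {p : ℕ}
    {ρbar : ResidualGaloisRep (ResidueField 𝒪)} {S Smin : Finset ℕ}
    (P : SelmerPackage c p ρbar S Smin) : TWPrimesOut c p ρbar S Smin := by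
  obtain ⟨r, hr⟩ := P.tw
  refine ⟨r, fun n => ?_⟩
  obtain ⟨qv, hqv, h0⟩ := hr n
  refine ⟨qv, hqv, (P.sel _ hqv.isAux).mono 𝒪 ?_⟩
  have hcard : (Finset.univ.image qv).card = r := by
    rw [Finset.card_image_of_injective _ hqv.1, Finset.card_univ, Fintype.card_fin]
  have := P.gw _ hqv.isAux
  omega

end Level2

/-! ## Level 3 (numeric skeleton): how `SelmerPackage.gw` splits into the blocks
(GW), (H0), (INF), (LOC-p), (LOC-S), (LOC-q).

All numbers are `finrank`s over `k` for `M = ad⁰ρbar`, `M* = ad⁰ρbar(1)` and the Selmer structure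
`L_Q` of the `Q`-problem, places `v ∈ {∞} ∪ Smin ∪ Q`:
`d = dim H¹_L(M)`, `dstar = dim H¹_{L^⊥}(M*)`, `h0 = dim M^{G_ℚ}`, `h0s = dim (M*)^{G_ℚ}`,
`hinf = dim M^{G_∞}` (and `L_∞ = 0`), `hp = dim M^{G_p}`, `lp = dim L_p`,
`hS = Σ_{v ∈ Smin∖p} dim M^{G_v}`, `lS = Σ_{v ∈ Smin∖p} dim L_v`, `hQ`, `lQ` the same over `Q`.
The inequality `gw` is literally the Prelude's `groupCohomology.greenbergWilesLeAdm`
(`Def_GroupCohomology_SelmerAdm`), with the sum over places split into four groups. -/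

structure GWLocNumbers (cardQ d dstar : ℕ) where
  h0 : ℕ
  h0s : ℕ
  hinf : ℕ
  hp : ℕ
  lp : ℕ
  hS : ℕ
  lS : ℕ
  hQ : ℕ
  lQ : ℕ
  /-- (GW) Greenberg–Wiles inequality (Poitou–Tate + both Euler characteristics). -/
  gw : d + h0s + (hinf + hp + hS + hQ) ≤ dstar + h0 + (0 + lp + lS + lQ)
  /-- (H0) `ad⁰ρbar` has no invariants (`habs`, `p` odd). -/
  h0_eq : h0 = 0
  /-- (INF) complex conjugation has eigenvalues `1, -1, -1` on `ad⁰` (odd, from `hdet`). -/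
  inf : hinf = 1
  /-- (LOC-p) strict-ordinary resp. flat: `dim L_p ≤ h⁰_p + 1`. -/
  locp : lp ≤ hp + 1
  /-- (LOC-S) unipotent inertia at `v ∈ Smin ∖ {p}`: `dim L_v ≤ h⁰_v`. -/
  locS : lS ≤ hS
  /-- (LOC-q) TW primes: `dim H¹(G_q, ad⁰) = h⁰_q + 1`. -/
  locq : lQ ≤ hQ + cardQ

theorem GWLocNumbers.le {cardQ d dstar : ℕ} (N : GWLocNumbers cardQ d dstar) :
    d ≤ dstar + cardQ := by
  have h1 := N.gw
  have h2 := N.h0_eq
  have h3 := N.inf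
  have h4 := N.locp
  have h5 := N.locS
  have h6 := N.locq
  omega

end Fermat.Agent.TW.Contracts
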