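import Mathlib
import Fermat.Prelude.Def_GaloisRep_Residual

/-!
# PROGRAM G (S56), shared vocabulary: the adjoint representation `ad⁰ ρbar` as a `Rep k G_ℚ`

`ρbar : ResidualGaloisRep k` (`V = ρbar.V` of rank `2`, `ρbar.ρ : G_ℚ →* End_k V`).

* `sl ρbar`      : the trace-zero endomorphisms of `V` (a `k`-submodule of `End_k V`, of dimension `3`),
* `adRepn ρbar`  : the conjugation action `σ • f = ρbar σ ∘ f ∘ ρbar σ⁻¹` on `End_k V`,
* `ad0Repn ρbar` : its restriction to `sl ρbar`,
* `ad0Rep ρbar`  : the same as an object of `Rep k G_ℚ` (the `M` of the Selmer vocabulary of the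
  Prelude: `groupCohomology.selmer`, `Rep.dualTwist`, ...).
-/

set_option autoImplicit false

namespace Fermat.Agent.TW.Ad0

local notation "Γℚ" => (AlgebraicClosure ℚ ≃ₐ[ℚ] AlgebraicClosure ℚ)

variable {k : Type} [Field k] (ρbar : ResidualGaloisRep k)

/-- The trace-zero endomorphisms of the space of `ρbar`. -/
noncomputable def sl : Submodule k (Module.End k ρbar.V) := LinearMap.ker (LinearMap.trace k ρbar.V)

theorem mem_sl_iff (f : Module.End k ρbar.V) : f ∈ sl ρbar ↔ LinearMap.trace k ρbar.V f = 0 :=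
  LinearMap.mem_ker

/-- The conjugation action of `G_ℚ` on `End_k V`. -/
noncomputable def adRepn : Representation k Γℚ (Module.End k ρbar.V) :=
  Representation.linHom (ρbar.ρ : Representation k Γℚ ρbar.V) ρbar.ρ

theorem adRepn_apply (σ : Γℚ) (f : Module.End k ρbar.V) :
    adRepn ρbar σ f = ρbar.ρ σ * f * ρbar.ρ σ⁻¹ := by
  rw [adRepn, Representation.linHom_apply]
  rfl

theorem rho_mul_rho_inv (σ : Γℚ) : ρbar.ρ σ * ρbar.ρ σ⁻¹ = 1 := by
  rw [← map_mul, mul_inv_cancel, map_one]

theorem rho_inv_mul_rho (σ : Γℚ) : ρbar.ρ σ⁻¹ * ρbar.ρ σ = 1 := by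
  rw [← map_mul, inv_mul_cancel, map_one]

theorem trace_adRepn (σ : Γℚ) (f : Module.End k ρbar.V) :
    LinearMap.trace k ρbar.V (adRepn ρbar σ f) = LinearMap.trace k ρbar.V f := by
  rw [adRepn_apply, LinearMap.trace_mul_comm, ← mul_assoc, rho_inv_mul_rho, one_mul]

theorem sl_le_comap (σ : Γℚ) : sl ρbar ≤ (sl ρbar).comap (adRepn ρbar σ) := by
  intro f hf
  rw [Submodule.mem_comap, mem_sl_iff, trace_adRepn]
  exact (mem_sl_iff ρbar f).mp hf

/-- The adjoint action on trace-zero endomorphisms. -/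
noncomputable def ad0Repn : Representation k Γℚ (sl ρbar) :=
  (adRepn ρbar).subrepresentation (sl ρbar) (sl_le_comap ρbar)

theorem coe_ad0Repn_apply (σ : Γℚ) (f : sl ρbar) :
    ((ad0Repn ρbar σ f : sl ρbar) : Module.End k ρbar.V) = ρbar.ρ σ * f * ρbar.ρ σ⁻¹ := by
  rw [← adRepn_apply]
  rfl

/-- `ad⁰ ρbar` as an object of `Rep k G_ℚ`. -/
noncomputable def ad0Rep : Rep k Γℚ := Rep.of (ad0Repn ρbar)

instance : Module.Finite k (sl ρbar) := inferInstanceAs (Module.Finite k (LinearMap.ker _))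

/-- `dim sl = 3`. -/
theorem finrank_sl : Module.finrank k (sl ρbar) = 3 := by
  have h1 := LinearMap.finrank_range_add_finrank_ker (LinearMap.trace k ρbar.V)
  have h2 : Module.finrank k (Module.End k ρbar.V) = 4 := by
    rw [Module.finrank_linearMap, ρbar.finrank_eq]
  have h3 : LinearMap.range (LinearMap.trace k ρbar.V) = ⊤ := by
    rw [LinearMap.range_eq_top]
    intro c
    let b := Module.finBasisOfFinrankEq k ρbar.V ρbar.finrank_eq
    refine ⟨Matrix.toLin b b (Matrix.single 0 0 c), ?_⟩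
    rw [LinearMap.trace_eq_matrix_trace k b, LinearMap.toMatrix_toLin, Matrix.trace_single_eq_same]
  rw [h3, finrank_top, Module.finrank_self, h2] at h1
  have : Module.finrank k (sl ρbar) = Module.finrank k (LinearMap.ker (LinearMap.trace k ρbar.V)) :=
    rfl
  omega

end Fermat.Agent.TW.Ad0
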