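import Mathlib
import Fermat.Agent.TW.Contracts
import Fermat.Agent.TW.Sel.Sel
import Fermat.Agent.S55.LCBridgeCompat

/-!
# S56, shared vocabulary for the (LOC-v) blocks: the local tangent span `L_v`

`T` a finite set of primes, `𝒟` a deformation condition, `ρbar` the residual representation.
For `v ∈ T` the local condition of the Selmer structure attached to `𝒟` is, BY DEFINITION,

`localTanSpan ρbar 𝒟 T v := span_k (res_v '' tanClasses ρbar 𝒟 T)`

inside `H¹_v := LC.H1 (levelOf (primeLocalToGlobal v)) (Rep.res (primeLocalToGlobal v) (ad0Rep ρbar))`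
(helper19's `tanClasses`, helper23's `ad0Rep`, main's `S55.lcLocTotal₁`).  With this choice the
inclusion `tanClasses ⊆ H¹_L` is a tautology (`tanClasses_subset_selmerSpan`), so
`Sel.tangentCardLe_of_tanClasses_subset` applies to `W := selmerSpan`.

The output contracts of the local blocks are the `Prop`s `LocBound` below.
-/

set_option autoImplicit false
set_option linter.unusedSectionVars false

namespace Fermat.Agent.TW.LocalSpan

open IsLocalRing ExtCitation Fermat.Agent.S55 Fermat.Agent.CFT Fermat.Agent.TW.Ad0 Fermat.Agent.TW.Sel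
open Fermat.Agent.TW.Contracts

variable {𝒪 : Type} [CommRing 𝒪] [IsLocalRing 𝒪]

local notation "kk" => ResidueField 𝒪

/-- The local cohomology group `H¹(G_v, ad⁰ρbar)` in level-cohomology language. -/
abbrev H1v (ρbar : ResidualGaloisRep kk) (v : Nat.Primes) : Type :=
  LC.H1 (levelOf (primeLocalToGlobal v)) (Rep.res (primeLocalToGlobal v) (ad0Rep ρbar))

/-- Restriction to the place `v ∈ T`. -/
noncomputable def resV (ρbar : ResidualGaloisRep kk) (T : Finset Nat.Primes) (v : Nat.Primes) :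
    LC.H1 (globalLevel T) (ad0Rep ρbar) →ₗ[kk] H1v ρbar v :=
  lcResH1 (ad0Rep ρbar) (levelCompat_globalLevel (primeLocalToGlobal v) T)

theorem resV_eq_lcLocTotal₁ (ρbar : ResidualGaloisRep kk) (T : Finset Nat.Primes) (v : ↥T)
    (x : LC.H1 (globalLevel T) (ad0Rep ρbar)) :
    resV ρbar T v.1 x = lcLocTotal₁ T (ad0Rep ρbar) x v := rfl

/-- The local condition `L_v`: the span of the restrictions of the tangent classes. -/
noncomputable def localTanSpan (ρbar : ResidualGaloisRep kk) (𝒟 : Cond 𝒪) (T : Finset Nat.Primes)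
    (v : Nat.Primes) : Submodule kk (H1v ρbar v) :=
  Submodule.span kk (resV ρbar T v '' tanClasses ρbar 𝒟 T)

/-- The Selmer group cut out by the local conditions `L_v`, `v ∈ T`. -/
noncomputable def selmerSpan (ρbar : ResidualGaloisRep kk) (𝒟 : Cond 𝒪) (T : Finset Nat.Primes) :
    Submodule kk (LC.H1 (globalLevel T) (ad0Rep ρbar)) :=
  ⨅ v : ↥T, (localTanSpan ρbar 𝒟 T v.1).comap (resV ρbar T v.1)

theorem tanClasses_subset_selmerSpan (ρbar : ResidualGaloisRep kk) (𝒟 : Cond 𝒪)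
    (T : Finset Nat.Primes) :
    tanClasses ρbar 𝒟 T ⊆ (selmerSpan ρbar 𝒟 T : Set (LC.H1 (globalLevel T) (ad0Rep ρbar))) := by
  intro x hx
  simp only [selmerSpan, Submodule.coe_iInf, Set.mem_iInter, SetLike.mem_coe]
  intro v
  exact Submodule.subset_span ⟨x, hx, rfl⟩

/-- **(SEL) for the span Selmer structure**: the tangent set of `𝒟` is bounded by the dimension of
`selmerSpan` (helper19's `tangentCardLe_of_tanClasses_subset` with `W := selmerSpan`). -/
theorem tangentCardLe_selmerSpan {p : ℕ} [Fact p.Prime] (ρbar : ResidualGaloisRep kk) (𝒟 : Cond 𝒪)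
    (T : Finset Nat.Primes)
    (hdet : letI : Algebra 𝒪 (DualNumber kk) := dualNumberAlgebra 𝒪
      ∀ ρ : GaloisRepAdic (DualNumber kk), 𝒟 ρ → ρ.DetIsCyclotomic p)
    (hur : letI : Algebra 𝒪 (DualNumber kk) := dualNumberAlgebra 𝒪
      ∀ ρ : GaloisRepAdic (DualNumber kk), 𝒟 ρ → ∀ q : Nat.Primes, q ∉ T →
        ρ.IsUnramifiedAt (q : ℕ))
    [FiniteDimensional kk (selmerSpan ρbar 𝒟 T)] :
    TangentCardLe 𝒪 ρbar 𝒟 (Module.finrank kk (selmerSpan ρbar 𝒟 T)) :=
  tangentCardLe_of_tanClasses_subset ρbar 𝒟 T hdet hur (selmerSpan ρbar 𝒟 T)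
    (tanClasses_subset_selmerSpan ρbar 𝒟 T)

/-- Monotonicity in the condition. -/
theorem localTanSpan_mono (ρbar : ResidualGaloisRep kk) {𝒟 𝒟' : Cond 𝒪}
    (h : ∀ ⦃A : Type⦄ [CommRing A] [IsLocalRing A] [Algebra 𝒪 A] (ρ : GaloisRepAdic A), 𝒟 ρ → 𝒟' ρ)
    (T : Finset Nat.Primes) (v : Nat.Primes) :
    localTanSpan ρbar 𝒟 T v ≤ localTanSpan ρbar 𝒟' T v := by
  apply Submodule.span_mono
  apply Set.image_mono
  rintro x ⟨ρ, hρ, r, hr, L, hL, hZ, rfl⟩
  exact ⟨ρ, @h (DualNumber kk) _ _ (dualNumberAlgebra 𝒪) ρ hρ, r, hr, L, hL, hZ, rfl⟩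

/-- Output contract of a local block at `v`: `dim L_v ≤ h⁰(G_v, ad⁰ρbar) + δ`. -/
def LocBound (ρbar : ResidualGaloisRep kk) (𝒟 : Cond 𝒪) (T : Finset Nat.Primes) (v : Nat.Primes)
    (δ : ℕ) : Prop :=
  FiniteDimensional kk (localTanSpan ρbar 𝒟 T v) ∧
    Module.finrank kk (localTanSpan ρbar 𝒟 T v) ≤
      Module.finrank kk (Rep.res (primeLocalToGlobal v) (ad0Rep ρbar)).ρ.invariants + δ

end Fermat.Agent.TW.LocalSpan
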