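import Fermat.Agent.TW.Ad0
import Fermat.Agent.S53.Schur

/-!
# PROGRAM G (S56), block (H0): `ad⁰ ρbar` has no `G_ℚ`-invariants

`ρbar` absolutely irreducible, `2 ≠ 0` in `k`  ⟹  `(ad⁰ ρbar)^{G_ℚ} = 0`
(Schur: an invariant is a scalar endomorphism of trace `0`, and `tr (λ • 1) = 2 λ`).
-/

set_option autoImplicit false

namespace Fermat.Agent.TW.H0

open Fermat.Agent.TW.Ad0

local notation "Γℚ" => (AlgebraicClosure ℚ ≃ₐ[ℚ] AlgebraicClosure ℚ)

variable {k : Type} [Field k] (ρbar : ResidualGaloisRep k)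

/-- An endomorphism fixed by the conjugation action commutes with the image of `ρbar`. -/
theorem commute_of_adRepn_eq {f : Module.End k ρbar.V} (hf : ∀ σ : Γℚ, adRepn ρbar σ f = f)
    (σ : Γℚ) : f * ρbar.ρ σ = ρbar.ρ σ * f := by
  have h := hf σ
  rw [adRepn_apply] at h
  calc f * ρbar.ρ σ = (ρbar.ρ σ * f * ρbar.ρ σ⁻¹) * ρbar.ρ σ := by rw [h]
    _ = ρbar.ρ σ * f * (ρbar.ρ σ⁻¹ * ρbar.ρ σ) := by rw [mul_assoc]
    _ = ρbar.ρ σ * f := by rw [rho_inv_mul_rho, mul_one]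

/-- **(H0)** the invariants of `ad⁰ ρbar` vanish. -/
theorem invariants_ad0Repn_eq_bot (habs : ρbar.IsAbsolutelyIrreducible) (h2 : (2 : k) ≠ 0) :
    (ad0Repn ρbar).invariants = ⊥ := by
  rw [eq_bot_iff]
  intro f hf
  rw [Representation.mem_invariants] at hf
  have hf' : ∀ σ : Γℚ, adRepn ρbar σ (f : Module.End k ρbar.V) = f := by
    intro σ
    have := congrArg (Subtype.val) (hf σ)
    rw [coe_ad0Repn_apply] at this
    rw [adRepn_apply]
    exact this
  obtain ⟨a, ha⟩ := Fermat.Agent.S53.exists_eq_smul_one_of_commute_of_span_eq_top ρbar.ρ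
    (Fermat.Agent.S53.residual_span_range_eq_top ρbar habs) (f : Module.End k ρbar.V)
    (commute_of_adRepn_eq ρbar hf')
  have htr : LinearMap.trace k ρbar.V (f : Module.End k ρbar.V) = 0 := (mem_sl_iff ρbar _).mp f.2
  rw [ha, map_smul, LinearMap.trace_one, ρbar.finrank_eq, smul_eq_mul] at htr
  have ha0 : a = 0 := by
    rcases mul_eq_zero.mp htr with h | h
    · exact h
    · exact absurd (by exact_mod_cast h) h2
  rw [Submodule.mem_bot]
  apply Subtype.ext
  rw [ha, ha0, zero_smul]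
  rfl

/-- **(H0)**, `Rep` form: `finrank (ad⁰ ρbar)^{G_ℚ} = 0`. -/
theorem finrank_invariants_ad0Rep (habs : ρbar.IsAbsolutelyIrreducible) (h2 : (2 : k) ≠ 0) :
    Module.finrank k (ad0Rep ρbar).ρ.invariants = 0 := by
  have h : (ad0Rep ρbar).ρ.invariants = ⊥ := invariants_ad0Repn_eq_bot ρbar habs h2
  rw [h, finrank_bot]

end Fermat.Agent.TW.H0
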