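import Mathlib

/-!
# PROGRAM G (S56), block (INF), linear algebra

`V` of rank `2` over a field `k` with `2 ≠ 0`, `g : End V` with `g * g = 1` and `det g = -1`.
Then the trace-zero endomorphisms commuting with `g` form the line `k • g`
(polarised Cayley–Hamilton: `f g + g f = tr(f g) • 1` for trace-zero `f`, `g`).
-/

set_option autoImplicit false

namespace Fermat.Agent.TW.INFLinAlg

open Matrix

section Mat

variable {k : Type*} [Field k]

/-- Polarised Cayley–Hamilton for `2 × 2` matrices. -/
theorem mul_add_mul_fin_two (A B : Matrix (Fin 2) (Fin 2) k) :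
    A * B + B * A =
      A.trace • B + B.trace • A + ((A * B).trace - A.trace * B.trace) • (1 : Matrix (Fin 2) (Fin 2) k) := by
  ext i j
  fin_cases i <;> fin_cases j <;>
    simp [Matrix.mul_apply, Fin.sum_univ_two, Matrix.trace] <;> ring

/-- An involution of determinant `-1` has trace `0` (if `2 ≠ 0`). -/
theorem trace_eq_zero_of_mul_self_eq_one (h2 : (2 : k) ≠ 0) (G : Matrix (Fin 2) (Fin 2) k)
    (hG : G * G = 1) (hdet : G.det = -1) : G.trace = 0 := by
  have h := mul_add_mul_fin_two G G
  rw [hG] at h
  -- `2 • 1 = 2 tr G • G + (tr 1 - (tr G)^2) • 1`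
  by_contra ht
  have h00 := congrFun (congrFun h 0) 1
  have h10 := congrFun (congrFun h 1) 0
  have h0 := congrFun (congrFun h 0) 0
  have h1 := congrFun (congrFun h 1) 1
  simp [Matrix.trace, Fin.sum_univ_two] at h00 h10 h0 h1 ht
  rw [Matrix.det_fin_two] at hdet
  have e00 := congrFun (congrFun hG 0) 0
  have e01 := congrFun (congrFun hG 0) 1
  have e10 := congrFun (congrFun hG 1) 0
  have e11 := congrFun (congrFun hG 1) 1
  simp [Matrix.mul_apply, Fin.sum_univ_two] at e00 e01 e10 e11
  -- `b (a + d) = 0`, `c (a + d) = 0`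
  have hb : G 0 1 = 0 := by
    have : G 0 1 * (G 0 0 + G 1 1) = 0 := by linear_combination e01
    rcases mul_eq_zero.mp this with h | h
    · exact h
    · exact absurd h ht
  have hc : G 1 0 = 0 := by
    have : G 1 0 * (G 0 0 + G 1 1) = 0 := by linear_combination e10
    rcases mul_eq_zero.mp this with h | h
    · exact h
    · exact absurd h ht
  have had : G 0 0 = G 1 1 := by
    have : (G 0 0 - G 1 1) * (G 0 0 + G 1 1) = 0 := by linear_combination e00 - e11
    rcases mul_eq_zero.mp this with h | h
    · exact sub_eq_zero.mp h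
    · exact absurd h ht
  rw [hb, had] at hdet
  rw [hb, hc, had] at e00
  apply h2
  linear_combination hdet - e00

/-- A trace-zero matrix commuting with an involution `G` of determinant `-1` is a multiple
of `G`. -/
theorem eq_smul_of_commute (h2 : (2 : k) ≠ 0) (G F : Matrix (Fin 2) (Fin 2) k)
    (hG : G * G = 1) (hdet : G.det = -1) (hF : F.trace = 0) (hFG : F * G = G * F) :
    F = ((F * G).trace / 2) • G := by
  have htG := trace_eq_zero_of_mul_self_eq_one h2 G hG hdet
  have h := mul_add_mul_fin_two F G
  rw [hF, htG, ← hFG] at h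
  simp only [zero_smul, zero_add, mul_zero, sub_zero] at h
  -- `2 F G = tr(F G) • 1`
  have h' : (2 : k) • (F * G) = (F * G).trace • (1 : Matrix (Fin 2) (Fin 2) k) := by
    rw [← h, two_smul]
  have h3 : F * G = ((F * G).trace / 2) • (1 : Matrix (Fin 2) (Fin 2) k) := by
    have := congrArg (fun M => (2 : k)⁻¹ • M) h'
    simp only [smul_smul, inv_mul_cancel₀ h2, one_smul] at this
    rw [div_eq_inv_mul]
    exact this
  calc F = F * (G * G) := by rw [hG, mul_one]
    _ = (F * G) * G := by rw [mul_assoc]
    _ = ((F * G).trace / 2) • G := by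
        conv_lhs => rw [h3]
        rw [smul_mul_assoc, one_mul]

end Mat

section Lin

variable {k V : Type*} [Field k] [AddCommGroup V] [Module k V]

/-- The involution has trace zero. -/
theorem trace_eq_zero_of_mul_self_eq_one' (hV : Module.finrank k V = 2) (h2 : (2 : k) ≠ 0)
    (g : Module.End k V) (hg : g * g = 1) (hdet : LinearMap.det g = -1) :
    LinearMap.trace k V g = 0 := by
  have : Module.Finite k V := Module.finite_of_finrank_eq_succ hV
  let b := Module.finBasisOfFinrankEq k V hV
  rw [LinearMap.trace_eq_matrix_trace k b]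
  apply trace_eq_zero_of_mul_self_eq_one h2
  · rw [← LinearMap.toMatrix_mul, hg, LinearMap.toMatrix_one]
  · rw [LinearMap.det_toMatrix, hdet]

/-- A trace-zero endomorphism commuting with an involution `g` of determinant `-1` of a
two-dimensional space is a multiple of `g`. -/
theorem exists_eq_smul_of_commute (hV : Module.finrank k V = 2) (h2 : (2 : k) ≠ 0)
    (g f : Module.End k V) (hg : g * g = 1) (hdet : LinearMap.det g = -1)
    (hf : LinearMap.trace k V f = 0) (hfg : f * g = g * f) : ∃ a : k, f = a • g := by
  have : Module.Finite k V := Module.finite_of_finrank_eq_succ hV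
  let b := Module.finBasisOfFinrankEq k V hV
  have h := eq_smul_of_commute h2 (LinearMap.toMatrix b b g) (LinearMap.toMatrix b b f)
    (by rw [← LinearMap.toMatrix_mul, hg, LinearMap.toMatrix_one])
    (by rw [LinearMap.det_toMatrix, hdet])
    (by rw [← LinearMap.trace_eq_matrix_trace k b, hf])
    (by rw [← LinearMap.toMatrix_mul, ← LinearMap.toMatrix_mul, hfg])
  refine ⟨((LinearMap.toMatrix b b f * LinearMap.toMatrix b b g).trace / 2),
    (LinearMap.toMatrix b b).injective ?_⟩
  rw [map_smul]
  exact h

end Lin

end Fermat.Agent.TW.INFLinAlg
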