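import Fermat.Agent.TW.Ad0
import Fermat.Agent.TW.INFLinAlg
import Fermat.Prelude.Def_GaloisRep_LocalConditions
import Fermat.Prelude.Def_GaloisRep_ComplexConjugation

/-!
# PROGRAM G (S56), block (INF): `dim (ad⁰ ρbar)^{G_∞} = 1`

`hdet` (cyclotomic determinant) gives `det ρbar(c) = -1` for the complex conjugation `c`
(`c μ = μ⁻¹ = μ ^ (p - 1)` on `p`-th roots of unity), and `c * c = 1`; so the trace-zero
endomorphisms fixed by `Ad ρbar(c)` are the multiples of `ρbar(c)` (`INFLinAlg`).
The archimedean decomposition group of the Prelude is `zpowers c`.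
-/

set_option autoImplicit false

namespace Fermat.Agent.TW.INF

open Fermat.Agent.TW.Ad0 ExtCitation

local notation "Γℚ" => (AlgebraicClosure ℚ ≃ₐ[ℚ] AlgebraicClosure ℚ)

/-- Complex conjugation inverts roots of unity. -/
theorem complexConjugation_apply_of_pow_eq_one {μ : AlgebraicClosure ℚ} {n : ℕ} (hn : n ≠ 0)
    (h : μ ^ n = 1) : complexConjugation μ = μ⁻¹ := by
  apply complexEmbedding.toRingHom.injective
  show complexEmbedding (complexConjugation μ) = complexEmbedding μ⁻¹
  rw [complexEmbedding_complexConjugation, map_inv₀]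
  have h1 : (complexEmbedding μ) ^ n = 1 := by rw [← map_pow, h, map_one]
  have h2 : ‖complexEmbedding μ‖ = 1 := Complex.norm_eq_one_of_pow_eq_one h1 hn
  exact (Complex.inv_eq_conj h2).symm

variable {k : Type} [Field k] (ρbar : ResidualGaloisRep k)

/-- `p = 0` in `k` under `DetIsCyclotomic p`. -/
theorem natCast_eq_zero_of_detIsCyclotomic {p : ℕ}
    (hdet : (GaloisRepAdic.ofResidualGaloisRep ρbar).DetIsCyclotomic p) : (p : k) = 0 := by
  have hbot : IsLocalRing.maximalIdeal k = ⊥ :=
    (Ideal.eq_bot_or_top _).resolve_right (Ideal.IsMaximal.ne_top inferInstance)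
  have h := hdet.1
  rw [hbot] at h
  exact h

/-- **Oddness**: `det ρbar(c) = -1`. -/
theorem det_complexConjugation {p : ℕ} (hp : p.Prime)
    (hdet : (GaloisRepAdic.ofResidualGaloisRep ρbar).DetIsCyclotomic p) :
    LinearMap.det (ρbar.ρ complexConjugation) = -1 := by
  have hp0 : (p : k) = 0 := natCast_eq_zero_of_detIsCyclotomic ρbar hdet
  have hroot : ∀ μ : AlgebraicClosure ℚ, μ ^ p ^ 1 = 1 → complexConjugation μ = μ ^ (p - 1) := by
    intro μ hμ
    rw [pow_one] at hμ
    rw [complexConjugation_apply_of_pow_eq_one hp.ne_zero hμ]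
    have hμ0 : μ ≠ 0 := by
      rintro rfl
      rw [zero_pow hp.ne_zero] at hμ
      exact zero_ne_one hμ
    symm
    apply eq_inv_of_mul_eq_one_left
    rw [← pow_succ, Nat.sub_add_cancel hp.one_le, hμ]
  have h := hdet.2 1 complexConjugation (p - 1) hroot
  have h' : LinearMap.det (ρbar.ρ complexConjugation) - ((p - 1 : ℕ) : k) ∈
      Ideal.span {((p ^ 1 : ℕ) : k)} := h
  rw [pow_one, hp0, Ideal.span_singleton_zero, Ideal.mem_bot, sub_eq_zero] at h'
  rw [h', Nat.cast_sub hp.one_le, hp0, Nat.cast_one, zero_sub]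

/-- `2 ≠ 0` in `k` for odd `p`. -/
theorem two_ne_zero_of_detIsCyclotomic {p : ℕ} (hp : p.Prime) (hp2 : p ≠ 2)
    (hdet : (GaloisRepAdic.ofResidualGaloisRep ρbar).DetIsCyclotomic p) : (2 : k) ≠ 0 := by
  have hp0 : (p : k) = 0 := natCast_eq_zero_of_detIsCyclotomic ρbar hdet
  intro h2
  obtain ⟨m, hm⟩ := hp.odd_of_ne_two hp2
  rw [hm, Nat.cast_add, Nat.cast_mul, Nat.cast_two, h2, zero_mul, zero_add, Nat.cast_one] at hp0
  exact one_ne_zero hp0

theorem rho_complexConjugation_mul_self :
    ρbar.ρ complexConjugation * ρbar.ρ complexConjugation = 1 := by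
  rw [← map_mul, complexConjugation_mul_self, map_one]

/-- `tr ρbar(c) = 0`. -/
theorem trace_rho_complexConjugation {p : ℕ} (hp : p.Prime) (hp2 : p ≠ 2)
    (hdet : (GaloisRepAdic.ofResidualGaloisRep ρbar).DetIsCyclotomic p) :
    LinearMap.trace k ρbar.V (ρbar.ρ complexConjugation) = 0 :=
  INFLinAlg.trace_eq_zero_of_mul_self_eq_one' ρbar.finrank_eq
    (two_ne_zero_of_detIsCyclotomic ρbar hp hp2 hdet) _ (rho_complexConjugation_mul_self ρbar)
    (det_complexConjugation ρbar hp hdet)

/-- The invariants of `G_∞ = ⟨c⟩` on `ad⁰ ρbar` are the line spanned by `ρbar(c)`. -/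
theorem invariants_archimedean_eq_span {p : ℕ} (hp : p.Prime) (hp2 : p ≠ 2)
    (hdet : (GaloisRepAdic.ofResidualGaloisRep ρbar).DetIsCyclotomic p) :
    Representation.invariants ((ad0Repn ρbar).comp archimedeanLoc) =
      Submodule.span k {(⟨ρbar.ρ complexConjugation,
        (mem_sl_iff ρbar _).mpr (trace_rho_complexConjugation ρbar hp hp2 hdet)⟩ : sl ρbar)} := by
  set g := ρbar.ρ complexConjugation with hg
  have hgg : g * g = 1 := rho_complexConjugation_mul_self ρbar
  have hginv : ρbar.ρ complexConjugation⁻¹ = g := by rw [complexConjugation_inv]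
  apply le_antisymm
  · intro f hf
    rw [Representation.mem_invariants] at hf
    have h1 := congrArg Subtype.val (hf archimedeanGen)
    have h2 : g * (f : Module.End k ρbar.V) * g = f := by
      have := coe_ad0Repn_apply ρbar complexConjugation f
      rw [hginv] at this
      rw [← this]
      exact h1
    have h3 : (f : Module.End k ρbar.V) * g = g * f := by
      calc (f : Module.End k ρbar.V) * g = (g * f * g) * g := by rw [h2]
        _ = g * f * (g * g) := by rw [mul_assoc]
        _ = g * f := by rw [hgg, mul_one]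
    obtain ⟨a, ha⟩ := INFLinAlg.exists_eq_smul_of_commute ρbar.finrank_eq
      (two_ne_zero_of_detIsCyclotomic ρbar hp hp2 hdet) g f hgg
      (det_complexConjugation ρbar hp hdet) ((mem_sl_iff ρbar _).mp f.2) h3
    rw [Submodule.mem_span_singleton]
    exact ⟨a, Subtype.ext ha.symm⟩
  · rw [Submodule.span_singleton_le_iff_mem, Representation.mem_invariants]
    rintro ⟨x, hx⟩
    obtain ⟨n, rfl⟩ := Subgroup.mem_zpowers_iff.mp hx
    apply Subtype.ext
    show ((ad0Repn ρbar (complexConjugation ^ n) _ : sl ρbar) : Module.End k ρbar.V) = g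
    rw [coe_ad0Repn_apply]
    show ρbar.ρ (complexConjugation ^ n) * g * ρbar.ρ (complexConjugation ^ n)⁻¹ = g
    rw [hg, ← map_mul, ← map_mul]
    congr 1
    group

/-- **(INF)** `dim (ad⁰ ρbar)^{G_∞} = 1`. -/
theorem finrank_invariants_archimedean {p : ℕ} (hp : p.Prime) (hp2 : p ≠ 2)
    (hdet : (GaloisRepAdic.ofResidualGaloisRep ρbar).DetIsCyclotomic p) :
    Module.finrank k (Rep.res archimedeanLoc (ad0Rep ρbar)).ρ.invariants = 1 := by
  have h : (Rep.res archimedeanLoc (ad0Rep ρbar)).ρ.invariants =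
      Representation.invariants ((ad0Repn ρbar).comp archimedeanLoc) := rfl
  rw [h, invariants_archimedean_eq_span ρbar hp hp2 hdet]
  apply finrank_span_singleton
  intro h0
  have h1 := congrArg Subtype.val h0
  have h2 : ρbar.ρ complexConjugation = 0 := h1
  have h3 := rho_complexConjugation_mul_self ρbar
  rw [h2, zero_mul] at h3
  have : Nontrivial ρbar.V :=
    Module.nontrivial_of_finrank_pos (R := k) (by rw [ρbar.finrank_eq]; norm_num)
  exact zero_ne_one h3

end Fermat.Agent.TW.INF
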