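import Fermat.Agent.TW.BC.TanCond

/-!
# S56 from the arithmetic blocks only

`Contracts.s56_of_blocks` with the block (TAN) discharged by `BC.tanOut_condQ_strictOrdinary` and
`BC.tanOut_condQ_flat`: the literal frozen statement S56 follows from `ArithOut` for the two base
conditions.
-/

set_option autoImplicit false

open Polynomial IsLocalRing

namespace Fermat.Agent.TW

open Fermat.Agent.TW.Contracts Fermat.Agent.TW.BC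

/-- **S56 from the two arithmetic blocks** (block (TAN) discharged). -/
theorem s56_of_arith
    (hord : ArithOut (fun 𝒪 _ p T => GaloisRep.strictOrdinaryCondition 𝒪 p T))
    (hflat : ArithOut (fun 𝒪 _ p T => GaloisRep.flatCondition 𝒪 p T))
    {𝒪 : Type} [CommRing 𝒪] [IsDomain 𝒪] [IsDiscreteValuationRing 𝒪]
    [IsAdicComplete (maximalIdeal 𝒪) 𝒪] [Finite (ResidueField 𝒪)]
    (p : ℕ) [Fact p.Prime] (hp2 : p ≠ 2) (hp𝒪 : (p : 𝒪) ∈ maximalIdeal 𝒪)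
    (ρbar : ResidualGaloisRep (ResidueField 𝒪))
    (habs : ρbar.IsAbsolutelyIrreducible)
    (hdet : (GaloisRepAdic.ofResidualGaloisRep ρbar).DetIsCyclotomic p)
    (hsplit : ∀ σ : AlgebraicClosure ℚ ≃ₐ[ℚ] AlgebraicClosure ℚ,
      ∃ α β : ResidueField 𝒪, LinearMap.charpoly (ρbar.ρ σ) = (X - C α) * (X - C β))
    (hTW : ∀ (K : Type) [Field K] [Algebra (ResidueField 𝒪) K]
      (G : Subgroup (AlgebraicClosure ℚ ≃ₐ[ℚ] AlgebraicClosure ℚ)), G.index = 2 →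
      ∀ V : Submodule K (ρbar.baseChange K).V,
        (∀ σ ∈ G, ∀ x ∈ V, (ρbar.baseChange K).ρ σ x ∈ V) → V = ⊥ ∨ V = ⊤)
    (S Smin : Finset ℕ) (hpSmin : p ∈ Smin) (hSmin : Smin ⊆ S) (hS : ∀ q ∈ S, q.Prime)
    (hmin : ∀ q : ℕ, q.Prime → q ≠ p → (q ∈ Smin ↔ ¬ ρbar.IsUnramifiedAt q)) :
    (∃ r : ℕ, ∀ n : ℕ, ∃ qv : Fin r → ℕ, Function.Injective qv ∧
      (∀ i, (qv i).Prime ∧ qv i ∉ S ∧ p ^ (n + 1) ∣ qv i - 1) ∧
      (∀ i, ∀ P : ValuationSubring (AlgebraicClosure ℚ), P.LiesOverPrime (qv i) →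
        ∀ φ : AlgebraicClosure ℚ ≃ₐ[ℚ] AlgebraicClosure ℚ, P.IsFrobeniusAt φ (qv i) →
          ∃ α β : ResidueField 𝒪, α ≠ β ∧ LinearMap.charpoly (ρbar.ρ φ) = (X - C α) * (X - C β)) ∧
      ∀ DQ : GaloisRep.DeformationRingData 𝒪 ρbar (fun _A _ _ _ ρ =>
          GaloisRep.strictOrdinaryCondition 𝒪 p (Smin ∪ Finset.univ.image qv) ρ ∧
            ∀ q ∈ Smin, q.Prime → q ≠ p → ρ.IsUnipotentOnInertiaAt q),
        ∃ γ : MvPowerSeries (Fin r) 𝒪 →ₐ[𝒪] DQ.R, Function.Surjective γ) ∧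
    (∃ r : ℕ, ∀ n : ℕ, ∃ qv : Fin r → ℕ, Function.Injective qv ∧
      (∀ i, (qv i).Prime ∧ qv i ∉ S ∧ p ^ (n + 1) ∣ qv i - 1) ∧
      (∀ i, ∀ P : ValuationSubring (AlgebraicClosure ℚ), P.LiesOverPrime (qv i) →
        ∀ φ : AlgebraicClosure ℚ ≃ₐ[ℚ] AlgebraicClosure ℚ, P.IsFrobeniusAt φ (qv i) →
          ∃ α β : ResidueField 𝒪, α ≠ β ∧ LinearMap.charpoly (ρbar.ρ φ) = (X - C α) * (X - C β)) ∧
      ∀ DQ : GaloisRep.DeformationRingData 𝒪 ρbar (fun _A _ _ _ ρ =>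
          GaloisRep.flatCondition 𝒪 p (Smin ∪ Finset.univ.image qv) ρ ∧
            ∀ q ∈ Smin, q.Prime → q ≠ p → ρ.IsUnipotentOnInertiaAt q),
        ∃ γ : MvPowerSeries (Fin r) 𝒪 →ₐ[𝒪] DQ.R, Function.Surjective γ) := by
  have hH : Hyp 𝒪 p ρbar S Smin :=
    ⟨Fact.out, hp2, hp𝒪, habs, hdet, hsplit, hTW, hpSmin, hSmin, hS, hmin⟩
  refine ⟨?_, ?_⟩
  · obtain ⟨r, hr⟩ := hord 𝒪 p ρbar S Smin hH
    refine ⟨r, fun n => ?_⟩
    obtain ⟨qv, ⟨h1, h2, h3⟩, h4⟩ := hr n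
    exact ⟨qv, h1, h2, h3, fun DQ => tanOut_condQ_strictOrdinary p Smin _ r h4 DQ⟩
  · obtain ⟨r, hr⟩ := hflat 𝒪 p ρbar S Smin hH
    refine ⟨r, fun n => ?_⟩
    obtain ⟨qv, ⟨h1, h2, h3⟩, h4⟩ := hr n
    exact ⟨qv, h1, h2, h3, fun DQ =>
      tanOut_condQ_flat p Smin _ r (two_lt_card_residueField Fact.out hp2 hp𝒪) h4 DQ⟩



end Fermat.Agent.TW
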